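/-
helper64 (P-GATEWAY (c), FkBasics): function fields of curves over an algebraically closed field
`K` of ARBITRARY characteristic, relative to a SEPARATING transcendental `y`
(`F / K(y)` finite separable). Characteristic-free versions of the S24 Part I results
(`ZD.sum_ord_zeros`, `PD.residue_surjective`, `PD.deg_eq_one`, zeros / poles of `y`),
which were stated for characteristic zero only because Mathlib's Dedekind instances on
`FunctionField.ringOfIntegers` need separability.
-/
import Fermat.Agent.S24.PrincipalDiv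

set_option autoImplicit false
set_option linter.unusedSectionVars false

noncomputable section

open IntermediateField IsDedekindDomain WithZero IsLocalRing AlgebraicCurve Ideal Polynomial

namespace Fermat.Agent.Gateway.FkBasics

open Fermat.Agent.S24

section XForm

variable {K F : Type*} [Field K] [Field F] [Algebra K F] [IsAlgClosed K]
variable [Algebra K[X] F] [IsScalarTower K K[X] F] [Algebra (RatFunc K) F]
  [IsScalarTower K[X] (RatFunc K) F] [FiniteDimensional (RatFunc K) F]
  [Algebra.IsSeparable (RatFunc K) F]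

local notation "𝓑" => FunctionField.ringOfIntegers K F

theorem isTorsionFree_ringOfIntegers : Module.IsTorsionFree K[X] 𝓑 :=
  Module.isTorsionFree_iff_algebraMap_injective.mpr
    (FunctionField.ringOfIntegers.algebraMap_injective K F)

omit [IsAlgClosed K] [Algebra K[X] F] [IsScalarTower K K[X] F] [Algebra (RatFunc K) F]
  [IsScalarTower K[X] (RatFunc K) F] [FiniteDimensional (RatFunc K) F]
  [Algebra.IsSeparable (RatFunc K) F] [Algebra K F] in
theorem surjective_algebraMap_quotient_span_X :
    Function.Surjective (algebraMap K (K[X] ⧸ span {(X : K[X])})) := by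
  intro q
  obtain ⟨p, rfl⟩ := Ideal.Quotient.mk_surjective q
  refine ⟨p.coeff 0, ?_⟩
  rw [IsScalarTower.algebraMap_apply K K[X] (K[X] ⧸ span {(X : K[X])}), Ideal.Quotient.algebraMap_eq,
    Ideal.Quotient.eq, Ideal.mem_span_singleton, Polynomial.algebraMap_eq, Polynomial.X_dvd_iff]
  simp

theorem zeroPlaces_ringOfIntegers_X :
    ZD.zeroPlaces (K := K) (F := F) 𝓑 (X : K[X]) = {v | 0 < v.ord (algebraMap K[X] F X)} := by
  ext v
  constructor
  · exact fun h => h.2
  · intro h
    refine ⟨fun b => ?_, h⟩
    have hy : algebraMap K[X] F X ∈ v.toValuationSubring := by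
      rw [ZD.PlaceLemmas.mem_iff_ord]; right; exact le_of_lt h
    exact ZD.mem_valuationSubring_of_isIntegral (R := K[X]) v.toValuationSubring
      (ZD.algebraMap_polynomial_mem v hy) b.2

theorem sum_ord_zeros_X :
    ∃ (_ : Fintype {v : Place K F // 0 < v.ord (algebraMap K[X] F X)}),
      ∑ v : {v : Place K F // 0 < v.ord (algebraMap K[X] F X)},
        v.1.ord (algebraMap K[X] F X) = (Module.finrank (RatFunc K) F : ℤ) := by
  have := isTorsionFree_ringOfIntegers (K := K) (F := F)
  have : (span {(X : K[X])}).IsMaximal :=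
    PrincipalIdealRing.isMaximal_of_irreducible Polynomial.irreducible_X
  obtain ⟨inst, hsum⟩ := ZD.sum_ord_zeroPlaces (K := K) (F := F) 𝓑 (X : K[X]) Polynomial.X_ne_zero
    surjective_algebraMap_quotient_span_X
  have hset := zeroPlaces_ringOfIntegers_X (K := K) (F := F)
  rw [IsFractionRing.finrank_eq K[X] (RatFunc K) 𝓑 F]
  let e : {v : Place K F // 0 < v.ord (algebraMap K[X] F X)} ≃
      ZD.zeroPlaces (K := K) (F := F) 𝓑 (X : K[X]) := Equiv.setCongr hset.symm
  refine ⟨Fintype.ofEquiv _ e.symm, ?_⟩
  let : Fintype {v : Place K F // 0 < v.ord (algebraMap K[X] F X)} := Fintype.ofEquiv _ e.symm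
  rw [← hsum, ← Equiv.sum_comp e]
  rfl

theorem residue_surjective_X (v : Place K F)
    (hX : algebraMap K[X] F X ∈ v.toValuationSubring) :
    Function.Surjective (algebraMap K v.ResidueField) := by
  have h : ∀ b : 𝓑, algebraMap 𝓑 F b ∈ v.toValuationSubring := fun b =>
    ZD.mem_valuationSubring_of_isIntegral (R := K[X]) v.toValuationSubring
      (ZD.algebraMap_polynomial_mem v hX) b.2
  have hft : Algebra.FiniteType K 𝓑 :=
    Algebra.FiniteType.trans (S := K[X]) inferInstance inferInstance
  have hmax : (ZD.PlaceLemmas.primeOfPlace v h).asIdeal.IsMaximal :=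
    (ZD.PlaceLemmas.primeOfPlace v h).isMaximal
  exact PD.residue_surjective_of_dedekind v h
    (PD.bijective_algebraMap_quotient_of_isMaximal _).2

end XForm

section YForm

variable {K F : Type*} [Field K] [Field F] [Algebra K F] [IsAlgClosed K]

/-- packaging of the instances used to apply the `K[X]`-form results to a separating `y`. -/
theorem exists_polynomial_instances (y : F) (hy : Transcendental K y)
    [FiniteDimensional K⟮y⟯ F] [Algebra.IsSeparable K⟮y⟯ F] :
    ∃ (_ : Algebra K[X] F) (_ : IsScalarTower K K[X] F) (_ : Algebra (RatFunc K) F)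
      (_ : IsScalarTower K[X] (RatFunc K) F) (_ : FiniteDimensional (RatFunc K) F)
      (_ : Algebra.IsSeparable (RatFunc K) F),
      algebraMap K[X] F X = y ∧ Module.finrank (RatFunc K) F = Module.finrank K⟮y⟯ F := by
  let alg1 : Algebra K[X] F := (aeval y : K[X] →ₐ[K] F).toRingHom.toAlgebra
  have halg1 : ∀ p : K[X], algebraMap K[X] F p = aeval y p := fun p => rfl
  have tower1 : IsScalarTower K K[X] F := IsScalarTower.of_algebraMap_eq (fun a => by
    rw [halg1, Polynomial.algebraMap_eq, aeval_C])
  let e : RatFunc K ≃ₐ[K] K⟮y⟯ := RatFunc.algEquivOfTranscendental y hy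
  let alg2 : Algebra (RatFunc K) F :=
    ((algebraMap K⟮y⟯ F).comp e.toRingEquiv.toRingHom).toAlgebra
  have halg2 : ∀ r : RatFunc K, algebraMap (RatFunc K) F r = ((e r : K⟮y⟯) : F) := fun r => rfl
  have tower2 : IsScalarTower K[X] (RatFunc K) F := IsScalarTower.of_algebraMap_eq (fun p => by
    rw [halg1, halg2, RatFunc.algEquivOfTranscendental_algebraMap]
    simp)
  have hc' : (algebraMap (RatFunc K) F).comp (e.symm.toRingEquiv : K⟮y⟯ →+* RatFunc K)
      = ((RingEquiv.refl F : F ≃+* F) : F →+* F).comp (algebraMap K⟮y⟯ F) := by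
    ext r
    simp only [RingHom.coe_comp, Function.comp_apply, halg2]
    simp
  have fin : FiniteDimensional (RatFunc K) F :=
    Module.Finite.of_equiv_equiv e.symm.toRingEquiv (RingEquiv.refl F) hc'
  have sep : Algebra.IsSeparable (RatFunc K) F :=
    Algebra.IsSeparable.of_equiv_equiv e.symm.toRingEquiv (RingEquiv.refl F) hc'
  have hc : (algebraMap K⟮y⟯ F).comp e.toRingEquiv.toRingHom
      = (RingEquiv.refl F).toRingHom.comp (algebraMap (RatFunc K) F) := by
    ext r; rfl
  have hfr : Module.finrank (RatFunc K) F = Module.finrank K⟮y⟯ F :=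
    Algebra.finrank_eq_of_equiv_equiv e.toRingEquiv (RingEquiv.refl F) hc
  exact ⟨alg1, tower1, alg2, tower2, fin, sep, by rw [halg1, aeval_X], hfr⟩

/-- **Degree of the zero divisor** of a separating element `y`: the orders of `y` at its zeros
add up to `[F : K(y)]`. -/
theorem sum_ord_zeros (y : F) (hy : Transcendental K y) [FiniteDimensional K⟮y⟯ F]
    [Algebra.IsSeparable K⟮y⟯ F] :
    ∃ (_ : Fintype {v : Place K F // 0 < v.ord y}),
      ∑ v : {v : Place K F // 0 < v.ord y}, v.1.ord y = (Module.finrank K⟮y⟯ F : ℤ) := by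
  obtain ⟨alg1, tower1, alg2, tower2, fin, sep, hX, hfr⟩ := exists_polynomial_instances y hy
  have key := sum_ord_zeros_X (K := K) (F := F)
  rw [hX, hfr] at key
  exact key

theorem residue_surjective_of_mem (v : Place K F) {y : F} (hy : Transcendental K y)
    [FiniteDimensional K⟮y⟯ F] [Algebra.IsSeparable K⟮y⟯ F] (hyv : y ∈ v.toValuationSubring) :
    Function.Surjective (algebraMap K v.ResidueField) := by
  obtain ⟨alg1, tower1, alg2, tower2, fin, sep, hX, -⟩ := exists_polynomial_instances y hy
  exact residue_surjective_X v (by rw [hX]; exact hyv)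

end YForm

section General

variable {K F : Type*} [Field K] [Field F] [Algebra K F] [IsAlgClosed K]

theorem finiteDimensional_adjoin_inv (x : F) [h : FiniteDimensional K⟮x⟯ F] :
    FiniteDimensional K⟮x⁻¹⟯ F := by
  rw [PD.adjoin_inv_eq]; exact h

theorem isSeparable_adjoin_inv (x : F) [h : Algebra.IsSeparable K⟮x⟯ F] :
    Algebra.IsSeparable K⟮x⁻¹⟯ F := by
  rw [PD.adjoin_inv_eq]; exact h

theorem finiteDimensional_adjoin_sub_const (x : F) (a : K) [h : FiniteDimensional K⟮x⟯ F] :
    FiniteDimensional K⟮x - algebraMap K F a⟯ F := by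
  rw [PD.adjoin_sub_const_eq]; exact h

theorem isSeparable_adjoin_sub_const (x : F) (a : K) [h : Algebra.IsSeparable K⟮x⟯ F] :
    Algebra.IsSeparable K⟮x - algebraMap K F a⟯ F := by
  rw [PD.adjoin_sub_const_eq]; exact h

variable {x : F} (hx : Transcendental K x) [FiniteDimensional K⟮x⟯ F]
  [Algebra.IsSeparable K⟮x⟯ F]

include hx in
/-- **Residue fields are the constant field** (any characteristic, `x` separating). -/
theorem residue_surjective (v : Place K F) :
    Function.Surjective (algebraMap K v.ResidueField) := by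
  rcases v.toValuationSubring.mem_or_inv_mem x with h | h
  · exact residue_surjective_of_mem v hx h
  · have := finiteDimensional_adjoin_inv (K := K) x
    have := isSeparable_adjoin_inv (K := K) x
    exact residue_surjective_of_mem v (PD.transcendental_inv hx) h

include hx in
theorem finite_residueField (v : Place K F) : Module.Finite K v.ResidueField :=
  Module.Finite.of_surjective (Algebra.linearMap K v.ResidueField) (residue_surjective hx v)

include hx in
/-- **All places have degree one.** -/
theorem deg_eq_one (v : Place K F) : v.deg = 1 :=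
  haveI := finite_residueField hx v
  v.deg_eq_one_of_isAlgClosed_of_finite

include hx in
/-- every element of the valuation ring is congruent to a constant. -/
theorem exists_const_sub_ord_pos (v : Place K F) {u : F} (hu : u ∈ v.toValuationSubring) :
    ∃ a : K, u = algebraMap K F a ∨ 0 < v.ord (u - algebraMap K F a) := by
  obtain ⟨a, ha⟩ := residue_surjective hx v (IsLocalRing.residue _ ⟨u, hu⟩)
  refine ⟨a, ?_⟩
  have h1 := (PD.residue_eq_algebraMap_iff v ⟨u, hu⟩ a).mp ha.symm
  by_cases h0 : u - algebraMap K F a = 0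
  · left; exact sub_eq_zero.mp h0
  · right
    exact (ZD.ord_pos_iff_adicValuation_lt_one v h0).mpr h1

end General

section ZerosPoles

variable {K F : Type*} [Field K] [Field F] [Algebra K F] [IsAlgClosed K]

/-- finset form of `sum_ord_zeros`. -/
theorem exists_finset_zeros {f : F} (hf : Transcendental K f) [FiniteDimensional K⟮f⟯ F]
    [Algebra.IsSeparable K⟮f⟯ F] :
    ∃ Z : Finset (Place K F), (∀ v, v ∈ Z ↔ 0 < v.ord f) ∧
      ∑ v ∈ Z, v.ord f = (Module.finrank K⟮f⟯ F : ℤ) := by
  classical
  obtain ⟨inst, hsum⟩ := sum_ord_zeros f hf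
  refine ⟨(Finset.univ : Finset {v : Place K F // 0 < v.ord f}).map
    (Function.Embedding.subtype _), fun v => ?_, ?_⟩
  · simp
  · rw [Finset.sum_map, ← hsum]
    rfl

/-- the pole divisor of a separating element has the same degree as the zero divisor. -/
theorem exists_finset_poles {f : F} (hf : Transcendental K f) [FiniteDimensional K⟮f⟯ F]
    [Algebra.IsSeparable K⟮f⟯ F] :
    ∃ P : Finset (Place K F), (∀ v, v ∈ P ↔ v.ord f < 0) ∧
      ∑ v ∈ P, v.ord f = -(Module.finrank K⟮f⟯ F : ℤ) := by
  have := finiteDimensional_adjoin_inv (K := K) f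
  have := isSeparable_adjoin_inv (K := K) f
  obtain ⟨P, hP, hsum⟩ := exists_finset_zeros (PD.transcendental_inv hf)
  refine ⟨P, fun v => ?_, ?_⟩
  · rw [hP, Place.ord_inv, neg_pos]
  · rw [← PD.finrank_adjoin_inv, ← hsum, ← Finset.sum_neg_distrib]
    exact Finset.sum_congr rfl fun v _ => by rw [Place.ord_inv, neg_neg]

/-- the fibre of a separating `y` over `a : K`: the ramification indices add up to
`[F : K(y)]`. -/
theorem exists_finset_fibre {y : F} (hy : Transcendental K y) [FiniteDimensional K⟮y⟯ F]
    [Algebra.IsSeparable K⟮y⟯ F] (a : K) :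
    ∃ Z : Finset (Place K F), (∀ v, v ∈ Z ↔ 0 < v.ord (y - algebraMap K F a)) ∧
      ∑ v ∈ Z, v.ord (y - algebraMap K F a) = (Module.finrank K⟮y⟯ F : ℤ) := by
  have := finiteDimensional_adjoin_sub_const (K := K) y a
  have := isSeparable_adjoin_sub_const (K := K) y a
  obtain ⟨Z, hZ, hsum⟩ := exists_finset_zeros (PD.transcendental_sub_const hy a)
  exact ⟨Z, hZ, by rw [hsum, PD.finrank_adjoin_sub_const]⟩

/-- every place is a pole of `y` or lies in the fibre over exactly one `a : K`. -/
theorem ord_neg_or_existsUnique_fibre {y : F} (hy : Transcendental K y)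
    [FiniteDimensional K⟮y⟯ F] [Algebra.IsSeparable K⟮y⟯ F] (v : Place K F) :
    v.ord y < 0 ∨ ∃! a : K, 0 < v.ord (y - algebraMap K F a) := by
  have hy0 : y ≠ 0 := by
    rintro rfl
    exact hy (isAlgebraic_zero)
  rcases lt_or_ge (v.ord y) 0 with h | h
  · exact Or.inl h
  · right
    have hmem : y ∈ v.toValuationSubring := (Fermat.Agent.S24.ord_nonneg_iff v hy0).mp h
    obtain ⟨a, ha⟩ := exists_const_sub_ord_pos hy v hmem
    rcases ha with ha | ha
    · exact absurd (ha ▸ isAlgebraic_algebraMap (R := K) (A := F) a) hy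
    · exact ⟨a, ha, fun b hb => PD.const_unique v hb ha⟩

/-- A separating element has finitely many zeros and poles and the sum of its orders is zero. -/
theorem finite_and_sum_of_separating (f : F) (hf : Transcendental K f)
    [FiniteDimensional K⟮f⟯ F] [Algebra.IsSeparable K⟮f⟯ F] :
    {v : Place K F | v.ord f ≠ 0}.Finite ∧ ∑ᶠ v : Place K F, v.ord f = 0 := by
  classical
  obtain ⟨Z, hZ, hZsum⟩ := exists_finset_zeros (K := K) hf
  obtain ⟨P, hP, hPsum⟩ := exists_finset_poles (K := K) hf
  have hdisj : Disjoint Z P := by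
    rw [Finset.disjoint_left]
    intro v hvZ hvP
    have h1 := (hZ v).mp hvZ
    have h2 := (hP v).mp hvP
    omega
  have hsub : {v : Place K F | v.ord f ≠ 0} ⊆ ↑(Z ∪ P) := by
    intro v hv
    rw [Finset.coe_union, Set.mem_union, Finset.mem_coe, Finset.mem_coe, hZ, hP]
    have : v.ord f ≠ 0 := hv
    omega
  refine ⟨(Z ∪ P).finite_toSet.subset hsub, ?_⟩
  have hsupp : Function.support (fun v : Place K F => v.ord f) ⊆ ↑(Z ∪ P) := hsub
  rw [finsum_eq_sum_of_support_subset _ hsupp, Finset.sum_union hdisj, hZsum, hPsum]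
  ring

end ZerosPoles

end Fermat.Agent.Gateway.FkBasics
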