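/-
helper64 (P-GATEWAY (c), FkBasics): principal divisors have degree zero, and functions without
poles are constant, for the function field of a curve over an algebraically closed field `K` of
ARBITRARY characteristic, given ONE separating transcendental `x` (`F / K(x)` finite separable).

Trick: for every `f ≠ 0` the element `y := x * f ^ q` (`q` the exponential characteristic) is
either a constant or again a separating element (`F = K(y)(F^q)` because `x = y / f^q`), and
`ord_P y = ord_P x + q * ord_P f`; so the sum formula for separating elements (`Sep.lean`)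
gives `q * ∑_P ord_P f = 0`.
-/
import Fermat.Agent.Gateway.FkBasics.Sep
import Fermat.Agent.S24.PrincDiv

set_option autoImplicit false
set_option linter.unusedSectionVars false

noncomputable section

open IntermediateField AlgebraicCurve Polynomial

namespace Fermat.Agent.Gateway.FkBasics

open Fermat.Agent.S24

section Criterion

variable {M F : Type*} [Field M] [Field F] [Algebra M F]

/-- if `F = M(F^q)` then `F = M(F^(q^j))` for every `j` -/
theorem adjoin_range_pow_expChar_pow_eq_top (q : ℕ) [ExpChar M q]
    (h : adjoin M (Set.range fun a : F => a ^ q) = ⊤) (j : ℕ) :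
    adjoin M (Set.range fun a : F => a ^ q ^ j) = ⊤ := by
  have hF : ExpChar F q := expChar_of_injective_algebraMap (algebraMap M F).injective q
  induction j with
  | zero =>
    rw [eq_top_iff]
    intro a _
    exact subset_adjoin M _ ⟨a, by simp⟩
  | succ j ih =>
    rw [eq_top_iff, ← ih, adjoin_le_iff]
    rintro _ ⟨b, rfl⟩
    have hb : b ∈ adjoin M (Set.range fun a : F => a ^ q) := h ▸ mem_top
    show b ^ q ^ j ∈ adjoin M (Set.range fun a : F => a ^ q ^ (j + 1))
    induction hb using adjoin_induction with
    | mem c hc =>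
      obtain ⟨c, rfl⟩ := hc
      refine subset_adjoin M _ ⟨c, ?_⟩
      show c ^ q ^ (j + 1) = (c ^ q) ^ q ^ j
      rw [← pow_mul, pow_succ']
    | algebraMap m =>
      rw [← map_pow]
      exact IntermediateField.algebraMap_mem _ _
    | add a b _ _ ha hb =>
      rw [add_pow_expChar_pow]
      exact add_mem ha hb
    | inv a _ ha =>
      rw [inv_pow]
      exact inv_mem ha
    | mul a b _ _ ha hb =>
      rw [mul_pow]
      exact mul_mem ha hb

/-- **Separability criterion**: a finite extension `F / M` with `F = M(F^q)` is separable. -/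
theorem isSeparable_of_adjoin_range_pow_eq_top [FiniteDimensional M F] (q : ℕ) [ExpChar M q]
    (h : adjoin M (Set.range fun a : F => a ^ q) = ⊤) : Algebra.IsSeparable M F := by
  rw [← separableClosure.eq_top_iff]
  have hpi : IsPurelyInseparable (separableClosure M F) F :=
    separableClosure.isPurelyInseparable M F
  have hexp : IsPurelyInseparable.HasExponent (separableClosure M F) F :=
    IsPurelyInseparable.hasExponent_of_finiteDimensional
  have hS : ExpChar (separableClosure M F) q :=
    expChar_of_injective_algebraMap (algebraMap M (separableClosure M F)).injective q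
  set e := IsPurelyInseparable.exponent (separableClosure M F) F
  rw [eq_top_iff, ← adjoin_range_pow_expChar_pow_eq_top q h e, adjoin_le_iff]
  rintro _ ⟨a, rfl⟩
  obtain ⟨s, hs⟩ := IsPurelyInseparable.exponent_def' (separableClosure M F) q a
  show a ^ q ^ e ∈ separableClosure M F
  rw [← hs]
  exact s.2

end Criterion

section MulPow

variable {K F : Type*} [Field K] [Field F] [Algebra K F]

/-- If `x` is separating and `x = y * g ^ q`, then `F = K(y)(F^q)`. -/
theorem adjoin_range_pow_eq_top_of_eq_mul_pow (q : ℕ) [ExpChar K q] (x y g : F)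
    [Algebra.IsSeparable K⟮x⟯ F] (hxy : x = y * g ^ q) :
    adjoin K⟮y⟯ (Set.range fun a : F => a ^ q) = ⊤ := by
  set T := adjoin K⟮y⟯ (Set.range fun a : F => a ^ q) with hT
  have hKx : ExpChar K⟮x⟯ q := expChar_of_injective_algebraMap (algebraMap K K⟮x⟯).injective q
  -- `T` contains `K`, `y`, and all `q`-th powers; hence `x`
  have hpow : ∀ a : F, a ^ q ∈ T := fun a => subset_adjoin _ _ ⟨a, rfl⟩
  have hy : y ∈ T := by
    have h1 : y ∈ K⟮y⟯ := mem_adjoin_simple_self K _
    exact IntermediateField.algebraMap_mem T (⟨y, h1⟩ : K⟮y⟯)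
  have hK : ∀ c : K, algebraMap K F c ∈ T := fun c => by
    have h1 : algebraMap K F c ∈ K⟮y⟯ := IntermediateField.algebraMap_mem _ c
    exact IntermediateField.algebraMap_mem T (⟨algebraMap K F c, h1⟩ : K⟮y⟯)
  have hx : x ∈ T := by
    rw [hxy]
    exact mul_mem hy (hpow g)
  -- `K(x) ⊆ T`
  have hKx_le : ∀ z ∈ adjoin K ({x} : Set F), z ∈ T := by
    intro z hz
    induction hz using adjoin_induction with
    | mem c hc =>
      rw [Set.mem_singleton_iff] at hc
      rw [hc]; exact hx
    | algebraMap c => exact hK c
    | add a b _ _ ha hb => exact add_mem ha hb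
    | inv a _ ha => exact inv_mem ha
    | mul a b _ _ ha hb => exact mul_mem ha hb
  -- `F = K(x)(F^q)` since `F / K(x)` is separable
  have hsep := adjoin_eq_adjoin_pow_expChar_of_isSeparable' K⟮x⟯ F (Set.univ : Set F) q
  have htop : adjoin K⟮x⟯ (Set.univ : Set F) = ⊤ := by
    rw [eq_top_iff]
    intro a _
    exact subset_adjoin _ _ (Set.mem_univ a)
  rw [htop] at hsep
  have key : ∀ a ∈ adjoin K⟮x⟯ ((fun b : F => b ^ q) '' Set.univ), a ∈ T := by
    intro a ha
    induction ha using adjoin_induction with
    | mem c hc =>
      obtain ⟨b, -, rfl⟩ := hc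
      exact hpow b
    | algebraMap r => exact hKx_le _ r.2
    | add a b _ _ ha hb => exact add_mem ha hb
    | inv a _ ha => exact inv_mem ha
    | mul a b _ _ ha hb => exact mul_mem ha hb
  rw [eq_top_iff]
  intro a _
  exact key a (hsep ▸ mem_top)

/-- **Key lemma.** If `x` is a separating element and `f ≠ 0`, then `x * f ^ q` (`q` the
exponential characteristic) is separating as soon as `F` is finite over `K(x f^q)`. -/
theorem isSeparable_adjoin_mul_pow (q : ℕ) [ExpChar K q] (x : F)
    [Algebra.IsSeparable K⟮x⟯ F] {f : F} (hf : f ≠ 0) [FiniteDimensional K⟮x * f ^ q⟯ F] :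
    Algebra.IsSeparable K⟮x * f ^ q⟯ F := by
  have : ExpChar K⟮x * f ^ q⟯ q :=
    expChar_of_injective_algebraMap (algebraMap K K⟮x * f ^ q⟯).injective q
  refine isSeparable_of_adjoin_range_pow_eq_top q
    (adjoin_range_pow_eq_top_of_eq_mul_pow q x (x * f ^ q) f⁻¹ ?_)
  rw [inv_pow, mul_assoc, mul_inv_cancel₀ (pow_ne_zero _ hf), mul_one]

end MulPow

section Main

variable {K F : Type*} [Field K] [Field F] [Algebra K F] [IsAlgClosed K]
variable {x : F} (hx : Transcendental K x) [FiniteDimensional K⟮x⟯ F]
  [Algebra.IsSeparable K⟮x⟯ F]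

include hx in
/-- **Sum formula** (any characteristic): every nonzero function has finitely many zeros and poles
and its orders add up to zero. -/
theorem finite_and_sum (f : F) (hf : f ≠ 0) :
    {v : Place K F | v.ord f ≠ 0}.Finite ∧ ∑ᶠ v : Place K F, v.ord f = 0 := by
  set q := ringExpChar K with hqdef
  have hq : ExpChar K q := ringExpChar.expChar K
  have hq1 : 0 < q := expChar_pos K q
  have hx0 : x ≠ 0 := by
    rintro rfl
    exact hx isAlgebraic_zero
  set y := x * f ^ q with hy
  have hordy : ∀ v : Place K F, v.ord y = v.ord x + (q : ℤ) * v.ord f := fun v => by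
    rw [hy, v.ord_mul hx0 (pow_ne_zero _ hf), ← zpow_natCast, v.ord_zpow]
  obtain ⟨hxfin, hxsum⟩ := finite_and_sum_of_separating x hx
  have hyres : {v : Place K F | v.ord y ≠ 0}.Finite ∧ ∑ᶠ v : Place K F, v.ord y = 0 := by
    by_cases hyalg : IsAlgebraic K y
    · obtain ⟨a, ha⟩ := PD.exists_algebraMap_eq_of_isAlgebraic hyalg
      have h0 : ∀ v : Place K F, v.ord y = 0 := fun v => by
        rw [← ha]; exact Fermat.Agent.S24.ord_algebraMap v a
      constructor
      · convert Set.finite_empty
        ext v
        simp [h0 v]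
      · simp [h0]
    · have hyt : Transcendental K y := hyalg
      have : FiniteDimensional K⟮y⟯ F :=
        PD.finiteDimensional_adjoin_of_transcendental (x := x) hyt
      have : Algebra.IsSeparable K⟮y⟯ F := isSeparable_adjoin_mul_pow q x hf
      exact finite_and_sum_of_separating y hyt
  obtain ⟨hyfin, hysum⟩ := hyres
  have hffin : {v : Place K F | v.ord f ≠ 0}.Finite := by
    refine (hyfin.union hxfin).subset ?_
    intro v hv
    have hv' : v.ord f ≠ 0 := hv
    by_contra hcon
    rw [Set.mem_union, not_or] at hcon
    have h1 : v.ord y = 0 := by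
      by_contra h; exact hcon.1 h
    have h2 : v.ord x = 0 := by
      by_contra h; exact hcon.2 h
    rw [hordy, h2, zero_add] at h1
    rcases mul_eq_zero.mp h1 with h | h
    · have : (q : ℤ) ≠ 0 := by exact_mod_cast hq1.ne'
      exact this h
    · exact hv' h
  refine ⟨hffin, ?_⟩
  have hqf : (Function.support fun v : Place K F => (q : ℤ) * v.ord f).Finite := by
    refine hffin.subset ?_
    intro v hv
    simp only [Function.mem_support, ne_eq, mul_eq_zero, not_or] at hv
    exact hv.2
  have h1 : ∑ᶠ v : Place K F, v.ord y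
      = ∑ᶠ v : Place K F, v.ord x + (q : ℤ) * ∑ᶠ v : Place K F, v.ord f := by
    rw [mul_finsum, ← finsum_add_distrib hxfin hqf]
    exact finsum_congr hordy
  rw [hysum, hxsum, zero_add] at h1
  rcases mul_eq_zero.mp h1.symm with h | h
  · have : (q : ℤ) ≠ 0 := by exact_mod_cast hq1.ne'
    exact absurd h this
  · exact h

include hx in
/-- **Principal divisors have degree zero**: the prelude class `HasPrincipalDivisors` for the
function field of a curve over an algebraically closed field of any characteristic, given a
separating transcendental. -/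
theorem hasPrincipalDivisors : HasPrincipalDivisors K F where
  exists_divisor f hf := by
    obtain ⟨hfin, hsum⟩ := finite_and_sum hx f hf
    refine ⟨Finsupp.ofSupportFinite (fun v => v.ord f) hfin, fun _ => rfl, ?_⟩
    rw [PDiv.degree_eq_finsum_of_deg_eq_one (fun v => deg_eq_one hx v), ← hsum]
    rfl

include hx in
/-- there is at least one place -/
theorem nonempty_place : Nonempty (Place K F) := by
  obtain ⟨Z, hZ, hsum⟩ := exists_finset_zeros (K := K) hx
  by_contra hne
  rw [not_nonempty_iff] at hne
  have hZe : Z = ∅ := Finset.eq_empty_of_isEmpty Z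
  rw [hZe, Finset.sum_empty] at hsum
  have hpos : 0 < Module.finrank K⟮x⟯ F := Module.finrank_pos
  have : (0 : ℤ) < (Module.finrank K⟮x⟯ F : ℤ) := by exact_mod_cast hpos
  omega

include hx in
/-- **A function without poles is constant.** -/
theorem exists_algebraMap_eq_of_forall_ord_nonneg (f : F) (hf : ∀ v : Place K F, 0 ≤ v.ord f) :
    ∃ a : K, algebraMap K F a = f := by
  obtain ⟨v0⟩ := nonempty_place hx
  have hmem : f ∈ v0.toValuationSubring := by
    rcases eq_or_ne f 0 with rfl | hf0
    · exact zero_mem _
    · exact (Fermat.Agent.S24.ord_nonneg_iff v0 hf0).mp (hf v0)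
  obtain ⟨a, ha | ha⟩ := exists_const_sub_ord_pos hx v0 hmem
  · exact ⟨a, ha.symm⟩
  exfalso
  set g := f - algebraMap K F a with hg
  have hg0 : g ≠ 0 := by
    intro h0
    rw [h0] at ha
    simp at ha
  have hgn : ∀ v : Place K F, 0 ≤ v.ord g := by
    intro v
    have h1 : f ∈ v.toValuationSubring := by
      rcases eq_or_ne f 0 with rfl | hf0
      · exact zero_mem _
      · exact (Fermat.Agent.S24.ord_nonneg_iff v hf0).mp (hf v)
    exact (Fermat.Agent.S24.ord_nonneg_iff v hg0).mpr (sub_mem h1 (v.algebraMap_mem' a))
  obtain ⟨hfin, hsum⟩ := finite_and_sum hx g hg0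
  have hpos : 0 < ∑ᶠ v : Place K F, v.ord g :=
    finsum_pos (fun v => hgn v) ⟨v0, ha⟩ hfin
  omega

include hx in
/-- **A function without zeros and poles is constant.** -/
theorem exists_algebraMap_eq_of_forall_ord_eq_zero (f : F) (hf : ∀ v : Place K F, v.ord f = 0) :
    ∃ a : K, algebraMap K F a = f :=
  exists_algebraMap_eq_of_forall_ord_nonneg hx f fun v => (hf v).ge

include hx in
/-- the prelude class `FiniteResidue` at every place -/
theorem finiteResidue (v : Place K F) : v.FiniteResidue := ⟨finite_residueField hx v⟩

include hx in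
/-- the divisor of a nonzero function -/
theorem exists_divisor_ord (f : F) (hf : f ≠ 0) :
    ∃ D : Divisor K F, (∀ v : Place K F, D v = v.ord f) ∧ Divisor.degree D = 0 :=
  (hasPrincipalDivisors hx).exists_divisor f hf

end Main

end Fermat.Agent.Gateway.FkBasics
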