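/-
helper64 (P-GATEWAY (c), FkBasics): the modular function field `F_k(N) = modularFunctionFieldFullC k N`
over an algebraically closed field `k` of ANY characteristic with `(N : k) ≠ 0`:

* `j` is transcendental over `k`;
* `F_k(N)` is finite and SEPARABLE over `k(j)` (the prime level modular equations
  `Φ_r(X, j(q^d))`, `r ∣ N` prime, are separable polynomials: their roots in `k((q^(1/r)))` are
  pairwise distinct `q`-expansions);
* hence (FkBasics/Principal) principal divisors have degree `0`, and a function with trivial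
  divisor is a constant.
-/
import Fermat.Agent.Gateway.FkBasics.Principal
import Fermat.Agent.Gateway.ES.ResidueField
import Fermat.Agent.S24.TransJ
import Fermat.Agent.S28.Conjugates
import Fermat.Agent.S28.ModEq.Final
import Fermat.Prelude.Def_ModularCurve_X0ModL

set_option autoImplicit false
set_option linter.unusedSectionVars false

noncomputable section

open ModularCurve AlgebraicCurve IntermediateField Polynomial

namespace Fermat.Agent.Gateway.FkBasics

open Fermat.Agent.S24 Fermat.Agent.S28 Fermat.Agent.S28.Conjugates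

section Step

/-- **Separability step**: if `y` is separable over `M`, and `x` is a root of the separable
polynomial `Φ(X, y)` (checked after an embedding `ι` into a bigger field), then `x` is separable
over `M`. -/
theorem isSeparable_of_rel {M F Ω : Type*} [Field M] [Field F] [Field Ω] [Algebra M F]
    (ι : F →+* Ω) {y x : F} (hy : IsSeparable M y) (Φ : Polynomial (Polynomial ℤ))
    (hsep : (Φ.map (evalA (ι y))).Separable)
    (h : (Φ.map (evalA (ι y))).eval (ι x) = 0) : IsSeparable M x := by
  have hE : Algebra.IsSeparable M M⟮y⟯ := (isSeparable_adjoin_simple_iff_isSeparable M F).mpr hy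
  let yE : M⟮y⟯ := ⟨y, mem_adjoin_simple_self M y⟩
  let P : M⟮y⟯[X] := Φ.map (evalA yE)
  have hP : P.map (ι.comp (algebraMap M⟮y⟯ F)) = Φ.map (evalA (ι y)) := by
    rw [map_evalA_map]
    rfl
  have hPsep : P.Separable := by
    rw [← separable_map (ι.comp (algebraMap M⟮y⟯ F)), hP]
    exact hsep
  have hroot : aeval x P = 0 := by
    apply ι.injective
    rw [map_zero, aeval_def, ← Polynomial.eval_map, ← Polynomial.eval_map_apply,
      Polynomial.map_map, hP]
    exact h
  have hxE : IsSeparable M⟮y⟯ x := hPsep.of_dvd (minpoly.dvd _ _ hroot)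
  exact IsSeparable.of_algebra_isSeparable_of_isSeparable M hxE

end Step

section SepPoly

variable {k : Type} [Field k]

theorem jSub_coeff_eq_zero_of_lt (ξ : kˣ) {c : ℕ} (hc : c ≠ 0) {m : ℤ} (hm : m < -1) :
    (jSub k ξ c).coeff ((c : ℤ) * m) = 0 := by
  rw [jSub, Conjugates.sub_apply, expd_coeff_mul hc, twist_coeff, coeff_jqModC_of_lt k hm, mul_zero]

/-- **The prime level modular equation `Φ_r(X, j(q^d))` is a separable polynomial** over
`k((q))`, as soon as `k` contains a primitive `r`-th root of unity (in particular `r` is invertible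
in `k`). -/
theorem separable_modularEquation {r : ℕ} [NeZero r] (hr1 : 1 < r) (E : ModularEquation r)
    (ζ : kˣ) (hζ : IsPrimitiveRoot ζ r) {d : ℕ} (hd : d ≠ 0) :
    (E.Φ.map (evalA (expd d (jqModC k)))).Separable := by
  have hr : r ≠ 0 := NeZero.ne r
  rw [← separable_map (expd (R := k) r), map_evalA_map, expd_expd hr hd, mul_comm r d]
  have h := factor_sub E ζ hζ (1 : kˣ) hd
  rw [one_pow, one_pow, jSub_one] at h
  rw [h]
  refine Separable.mul separable_X_sub_C ?_ ?_
  · rw [separable_prod_X_sub_C_iff']
    intro i hi i' hi' hii'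
    have h1 := congrArg (fun f : LaurentSeries k => f.coeff (-(d : ℤ))) hii'
    simp only [jSub_coeff_neg _ hd, one_mul] at h1
    have h2 : (ζ ^ i)⁻¹ = (ζ ^ i')⁻¹ := Units.ext h1
    exact hζ.pow_inj (Finset.mem_range.mp hi) (Finset.mem_range.mp hi') (inv_injective h2)
  · refine IsCoprime.prod_right fun i _ => ?_
    refine isCoprime_X_sub_C_of_isUnit_sub (sub_ne_zero.mpr ?_).isUnit
    intro hab
    have hr2 : d * r ^ 2 ≠ 0 := Nat.mul_ne_zero hd (pow_ne_zero 2 hr)
    have h1 := congrArg (fun f : LaurentSeries k => f.coeff (-((d * r ^ 2 : ℕ) : ℤ))) hab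
    simp only [jSub_coeff_neg _ hr2] at h1
    have hlt : -((r : ℤ) ^ 2) < -1 := by
      have : (1 : ℤ) < r := by exact_mod_cast hr1
      nlinarith
    have h3 : -((d * r ^ 2 : ℕ) : ℤ) = (d : ℤ) * (-((r : ℤ) ^ 2)) := by
      push_cast
      ring
    rw [h3, jSub_coeff_eq_zero_of_lt _ hd hlt] at h1
    simp at h1

end SepPoly

section Modular

variable (k : Type) [Field k]

/-- the series `j(q^d)` over `k` -/
def genΩ (d : ℕ) : LaurentSeries k := expd d (jqModC k)

theorem genΩ_mem {N d : ℕ} (hd : d ∣ N) (hd0 : d ≠ 0) :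
    genΩ k d ∈ modularFunctionFieldFullC k N := by
  have : NeZero d := ⟨hd0⟩
  rw [genΩ, expd_eq]
  exact jqModCd_mem_full k N hd

variable (N : ℕ) [NeZero N]

/-- the modular function field of level `N` over `k` -/
abbrev Fk : Type := ↥(modularFunctionFieldFullC k N)

/-- `j(q^d)` as an element of the function field of level `N`, for `d ∣ N` -/
def genF {d : ℕ} (hd : d ∣ N) : Fk k N :=
  ⟨genΩ k d, genΩ_mem k hd (ne_zero_of_dvd_ne_zero (NeZero.ne N) hd)⟩

/-- `j` as an element of the function field of level `N` -/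
def jk : Fk k N := ⟨jqModC k, jqModC_mem_full k N⟩

theorem coe_jk : ((jk k N : Fk k N) : LaurentSeries k) = jqModC k := rfl

theorem coe_genF {d : ℕ} (hd : d ∣ N) : ((genF k N hd : Fk k N) : LaurentSeries k) = genΩ k d := rfl

theorem genF_one : genF k N (one_dvd N) = jk k N :=
  Subtype.ext (by rw [coe_genF, genΩ, expd_one]; rfl)

theorem transcendental_jqModC : Transcendental k (jqModC k) := by
  refine TransJ.transcendental_of_coeff_ne_zero _ (n := -1) (by norm_num) ?_
  rw [jqModC_coeff_neg_one]
  exact one_ne_zero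

/-- `j` is transcendental over `k` -/
theorem transcendental_jk : Transcendental k (jk k N) :=
  (transcendental_algebraMap_iff
    (algebraMap (Fk k N) (LaurentSeries k)).injective).mp (transcendental_jqModC k)

theorem exists_primitiveRoot_unit [IsAlgClosed k] (n : ℕ) (hn : (n : k) ≠ 0) :
    ∃ ζ : kˣ, IsPrimitiveRoot ζ n := by
  have : NeZero (n : k) := ⟨hn⟩
  obtain ⟨ζ, hζ⟩ := HasEnoughRootsOfUnity.exists_primitiveRoot k n
  have hn0 : n ≠ 0 := by rintro rfl; simp at hn
  exact ⟨(hζ.isUnit hn0).unit, hζ.isUnit_unit hn0⟩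

variable {k} in
theorem natCast_ne_zero_of_dvd {d n : ℕ} (h : d ∣ n) (hn : (n : k) ≠ 0) : (d : k) ≠ 0 := by
  obtain ⟨e, rfl⟩ := h
  intro h0
  apply hn
  rw [Nat.cast_mul, h0, zero_mul]

variable [IsAlgClosed k] (hN : (N : k) ≠ 0)

include hN in
/-- every `j(q^d)`, `d ∣ N`, is integral and separable over `k(j)` -/
theorem isIntegral_and_isSeparable_of_coe_eq : ∀ d, d ∣ N → ∀ y : Fk k N,
    (y : LaurentSeries k) = genΩ k d →
      IsIntegral k⟮jk k N⟯ y ∧ IsSeparable k⟮jk k N⟯ y := by
  intro d
  induction d using Nat.strong_induction_on with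
  | _ d ih =>
    intro hd y hy
    rcases eq_or_ne d 1 with rfl | hd1
    · have h1 : y = jk k N := Subtype.ext (by rw [hy, genΩ, expd_one]; rfl)
      rw [h1]
      have h2 : jk k N = algebraMap k⟮jk k N⟯ (Fk k N) ⟨jk k N, mem_adjoin_simple_self k _⟩ := rfl
      rw [h2]
      exact ⟨isIntegral_algebraMap, isSeparable_algebraMap _⟩
    · have hM : N ≠ 0 := NeZero.ne N
      have hd0 : d ≠ 0 := ne_zero_of_dvd_ne_zero hM hd
      have hrp : (d.minFac).Prime := Nat.minFac_prime hd1
      obtain ⟨d', hd'⟩ := Nat.minFac_dvd d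
      set r := d.minFac with hr
      have hr0 : r ≠ 0 := hrp.ne_zero
      have hd'0 : d' ≠ 0 := fun h => hd0 (by rw [hd', h, mul_zero])
      have hd'lt : d' < d := by
        rw [hd']
        exact lt_mul_of_one_lt_left (Nat.pos_of_ne_zero hd'0) hrp.one_lt
      have hd'd : d' ∣ d := ⟨r, by rw [hd', mul_comm]⟩
      have hrd : r ∣ d := ⟨d', hd'⟩
      have : NeZero r := ⟨hr0⟩
      have hrk : (r : k) ≠ 0 := natCast_ne_zero_of_dvd (hrd.trans hd) hN
      obtain ⟨ζ, hζ⟩ := exists_primitiveRoot_unit k r hrk
      have hrel := rel_expd (k := k) (ModEq.modularEquation r hrp) ζ hζ hd'0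
      rw [mul_comm d' r, ← hd'] at hrel
      have hsep := separable_modularEquation (k := k) hrp.one_lt (ModEq.modularEquation r hrp)
        ζ hζ hd'0
      have hd'M : d' ∣ N := hd'd.trans hd
      obtain ⟨hy'i, hy's⟩ := ih d' hd'lt hd'M (genF k N hd'M) rfl
      have hroot : eval ((algebraMap (Fk k N) (LaurentSeries k)) y)
          (map (evalA ((algebraMap (Fk k N) (LaurentSeries k)) (genF k N hd'M)))
            (ModEq.modularEquation r hrp).Φ) = 0 := by
        show eval (y : LaurentSeries k) (map (evalA (genΩ k d')) _) = 0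
        rw [hy]
        exact hrel
      refine ⟨?_, ?_⟩
      · refine isIntegral_of_rel hy'i (ModEq.modularEquation r hrp).Φ
          (ModEq.modularEquation r hrp).monic ?_
        apply (algebraMap (Fk k N) (LaurentSeries k)).injective
        rw [map_zero, ← Polynomial.eval_map_apply, map_evalA_map]
        exact hroot
      · exact isSeparable_of_rel (algebraMap (Fk k N) (LaurentSeries k)) hy's
          (ModEq.modularEquation r hrp).Φ hsep hroot

/-- the generators of the function field of level `N` -/
def genSet : Set (Fk k N) :=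
  Set.range fun d : N.divisors => genF k N (Nat.dvd_of_mem_divisors d.2)

omit [IsAlgClosed k] in
theorem adjoin_genSet : adjoin k (genSet k N) = ⊤ := by
  rw [eq_top_iff]
  rintro y -
  let T : IntermediateField k (LaurentSeries k) :=
    (adjoin k (genSet k N)).map (modularFunctionFieldFullC k N).val
  have hgen : ∀ d (hd : d ∣ N), genΩ k d ∈ T := fun d hd =>
    ⟨genF k N hd, subset_adjoin k _ ⟨⟨d, Nat.mem_divisors.mpr ⟨hd, NeZero.ne N⟩⟩, rfl⟩, rfl⟩
  have hle : modularFunctionFieldFullC k N ≤ T := by
    rw [modularFunctionFieldFullC, adjoin_le_iff]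
    rintro _ ⟨d, hne, hdvd, rfl⟩
    rw [← expd_eq]
    exact hgen d hdvd
  obtain ⟨z, hz, hzy⟩ := hle y.2
  have hzy' : z = y := Subtype.ext hzy
  exact hzy' ▸ hz

set_option synthInstance.maxHeartbeats 400000 in
omit [IsAlgClosed k] in
theorem adjoin_adjoin_genSet : adjoin k⟮jk k N⟯ (genSet k N) = ⊤ := by
  rw [eq_top_iff]
  have h1 : adjoin k (genSet k N) ≤ (adjoin k⟮jk k N⟯ (genSet k N)).restrictScalars k :=
    adjoin_le_iff.mpr (subset_adjoin _ _)
  rw [adjoin_genSet] at h1
  intro y _
  exact h1 (mem_top)

include hN in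
/-- **the function field of level `N` is finite over `k(j)`** -/
theorem finiteDimensional_Fk : FiniteDimensional k⟮jk k N⟯ (Fk k N) := by
  have hint : ∀ y ∈ genSet k N, IsIntegral k⟮jk k N⟯ y := by
    rintro _ ⟨d, rfl⟩
    exact (isIntegral_and_isSeparable_of_coe_eq k N hN d.1 (Nat.dvd_of_mem_divisors d.2) _ rfl).1
  have : Finite (genSet k N) := Set.finite_range _
  have hfd := IntermediateField.finiteDimensional_adjoin (K := k⟮jk k N⟯) hint
  rw [adjoin_adjoin_genSet] at hfd
  exact Module.Finite.equiv (topEquiv (F := k⟮jk k N⟯) (E := Fk k N)).toLinearEquiv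

include hN in
/-- **the function field of level `N` is separable over `k(j)`** (any characteristic prime to
`N`) -/
theorem isSeparable_Fk : Algebra.IsSeparable k⟮jk k N⟯ (Fk k N) := by
  have hsep : ∀ y ∈ genSet k N, IsSeparable k⟮jk k N⟯ y := by
    rintro _ ⟨d, rfl⟩
    exact (isIntegral_and_isSeparable_of_coe_eq k N hN d.1 (Nat.dvd_of_mem_divisors d.2) _ rfl).2
  have h1 : Algebra.IsSeparable k⟮jk k N⟯ (adjoin k⟮jk k N⟯ (genSet k N)) :=
    (isSeparable_adjoin_iff_isSeparable k⟮jk k N⟯ (Fk k N)).mpr hsep
  refine ⟨fun y => ?_⟩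
  have hy : y ∈ adjoin k⟮jk k N⟯ (genSet k N) := by
    rw [adjoin_adjoin_genSet]
    exact mem_top
  exact isSeparable_of_mem_isSeparable k⟮jk k N⟯ (Fk k N) hy

include hN in
/-- **Principal divisors of `F_k(N)` have degree zero**, `k` algebraically closed of any
characteristic prime to `N`. -/
theorem hasPrincipalDivisors_Fk : HasPrincipalDivisors k (Fk k N) := by
  have := finiteDimensional_Fk k N hN
  have := isSeparable_Fk k N hN
  exact hasPrincipalDivisors (transcendental_jk k N)

include hN in
/-- every place of `F_k(N)` has degree one -/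
theorem deg_eq_one_Fk (v : Place k (Fk k N)) : v.deg = 1 := by
  have := finiteDimensional_Fk k N hN
  have := isSeparable_Fk k N hN
  exact deg_eq_one (transcendental_jk k N) v

include hN in
/-- every place of `F_k(N)` has residue field `k` -/
theorem residue_surjective_Fk (v : Place k (Fk k N)) :
    Function.Surjective (algebraMap k (IsLocalRing.ResidueField v.toValuationSubring)) := by
  have := finiteDimensional_Fk k N hN
  have := isSeparable_Fk k N hN
  exact residue_surjective (transcendental_jk k N) v

include hN in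
/-- **a function on `X_0(N)_k` without poles is constant** -/
theorem exists_algebraMap_eq_of_forall_ord_nonneg_Fk (g : Fk k N)
    (hg : ∀ Q : Place k (Fk k N), 0 ≤ Q.ord g) : ∃ c : k, g = algebraMap k (Fk k N) c := by
  have := finiteDimensional_Fk k N hN
  have := isSeparable_Fk k N hN
  obtain ⟨c, hc⟩ := exists_algebraMap_eq_of_forall_ord_nonneg (transcendental_jk k N) g hg
  exact ⟨c, hc.symm⟩

include hN in
/-- **a function on `X_0(N)_k` with trivial divisor is constant**: the hypothesis `hconstk` of
`Kummer/S18Glue.lean` (`s18_of_kummerRedInj`, `eq_zero_of_reductionAlong_eq_zero`). -/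
theorem hconstk (g : modularFunctionFieldFullC k N) (_hg : g ≠ 0)
    (hord : ∀ Q : Place k (modularFunctionFieldFullC k N), Q.ord g = 0) :
    ∃ c : k, g = algebraMap k (modularFunctionFieldFullC k N) c :=
  exists_algebraMap_eq_of_forall_ord_nonneg_Fk k N hN g fun Q => (hord Q).ge

end Modular

section ResidueField

set_option synthInstance.maxHeartbeats 400000

/-- `hconstk` for the residue field of a valuation subring of `ℚ̄` over `ℓ ∤ N`, exactly in the
shape of the hypothesis of `Kummer.s18_of_kummerRedInj`. -/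
theorem hconstk_residueField (N : ℕ) [NeZero N] {ℓ : ℕ} [Fact ℓ.Prime] (hℓN : ¬ ℓ ∣ N)
    (A : ValuationSubring (AlgebraicClosure ℚ)) (hA : A.LiesOverPrime ℓ) :
    ∀ g : modularFunctionFieldFullC (IsLocalRing.ResidueField A) N, g ≠ 0 →
      (∀ Q : Place (IsLocalRing.ResidueField A)
        (modularFunctionFieldFullC (IsLocalRing.ResidueField A) N), Q.ord g = 0) →
      ∃ c : IsLocalRing.ResidueField A,
        g = algebraMap (IsLocalRing.ResidueField A)
          (modularFunctionFieldFullC (IsLocalRing.ResidueField A) N) c := by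
  have : CharP (IsLocalRing.ResidueField A) ℓ := ES.charP_residueField_of_liesOverPrime A hA
  have : IsAlgClosed (IsLocalRing.ResidueField A) := ES.isAlgClosed_residueField A
  have hN : (N : IsLocalRing.ResidueField A) ≠ 0 := by
    rw [Ne, CharP.cast_eq_zero_iff (IsLocalRing.ResidueField A) ℓ]
    exact hℓN
  exact hconstk (IsLocalRing.ResidueField A) N hN

end ResidueField

end Fermat.Agent.Gateway.FkBasics
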